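import Fermat.Agent.LT.CFT.H119.ClosedTC
import Fermat.Agent.LT.CFT.H1.Spec
import Fermat.Agent.S55.G.Rec.HP.Main
import Fermat.Agent.S55.G.AllH604

/-!
# Row LT, tower CFT (architect helper53), sub-tower G2 (helper421): the HASSE PRINCIPLE for the
# `2`-primary part of `Br(K)`, `K = ℚ̄^U` TOTALLY COMPLEX — UNCONDITIONAL

    theorem Fermat.Agent.LT.CFT.H421.hassePrinciple2 : H1.HassePrinciple2Spec

This is the input `IN` of the sub-tower REC2 (helper1, `LT/CFT/H1/Spec.lean`).

Route = adapter HP of S55 layer G (on main, `S55/G/Rec/HP`) with "`p ≠ 2`" replaced by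
"the base field is totally complex":

* `hasseFinP_tc421` : finite level, `2`-groups.  Proof of `HP.H795.hasseFinP_of` with
  `H¹(Γ, C_S(L)) = 0` taken from helper119's `pClassUpper_tc119 2` (layer G at `p = 2` over a
  totally complex base, `LT/CFT/H119/ClosedTC.lean`);
* `hasseFin_tc421`  : finite level, any finite group (Sylow reduction, proof of
  `HP.H841.hasseFin_of`; total complexity passes to subgroups);
* `admTC_level421`  : `H1.IsTC U` gives the side condition `H119.admTC119` at every finite normal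
  level `F` with `Gal(ℚ̄/F) ≤ U`;
* `hassePrinciple2` : assembly with the landed dictionary `HP.H126.globalDescent`,
  `HP.H126.globalUp`, `HP.localGlue`.

The layer-G specs at `p = 2` (FI2, SI2, CYC2, UP2, CYCp2) are helper119's closed forms
`firstIneqCyc_admTC119`, `secondIneqGen119`, `cyclicLayer_tc119`, `pClassUpper_tc119`,
`cyclicPow_tc119`; nothing of G2 remains open.

Imports: Mathlib + plain files on main + `LT/CFT/H119`, `LT/CFT/H1/Spec` only.  No `sorry`.
-/

set_option autoImplicit false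
set_option linter.style.haveILetI false
set_option linter.unusedSectionVars false

open scoped NumberField ComplexConjugate
open IsDedekindDomain CategoryTheory groupCohomology

noncomputable section

namespace Fermat.Agent.LT.CFT.H421

open Fermat.Agent.S55 Fermat.Agent.S55.G Fermat.Agent.S55.G.Rec Fermat.Agent.S55.G.Rec.HP
open Fermat.Agent.S55.G.Rec.HP.H795 Fermat.Agent.S55.KL.H795
open Fermat.Agent.LT.CFT.H119

local notation "Qb" => AlgebraicClosure ℚ
local notation "GQ" => (AlgebraicClosure ℚ ≃ₐ[ℚ] AlgebraicClosure ℚ)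

/-! ## 1. Finite level, `2`-groups -/

/-- `-1` is a primitive square root of unity fixed by every group of field automorphisms. -/
theorem hasFixedRoot_two421 (Γ L : Type) [Group Γ] [Field L] [CharZero L]
    [MulSemiringAction Γ L] : HasFixedRootOfUnity 2 Γ L := by
  refine ⟨-1, ?_, fun g => ?_⟩
  · rw [IsPrimitiveRoot.iff_def]
    refine ⟨by norm_num, fun l hl => ?_⟩
    rcases Nat.even_or_odd l with he | ho
    · exact even_iff_two_dvd.1 he
    · rw [ho.neg_one_pow] at hl
      exact absurd hl (by norm_num)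
  · rw [smul_neg, smul_one]

/-- **HP-FINp at `p = 2`, totally complex base.**  `Γ` a finite `2`-group acting faithfully on
the number field `L`, `L^Γ` totally complex: a class in `H²(Γ, Lˣ)` which is locally trivial at
all places above all finite sets `S` of primes is trivial. -/
theorem hasseFinP_tc421 (Γ L : Type) [Group Γ] [Finite Γ] [Field L] [NumberField L]
    [MulSemiringAction Γ L] [FaithfulSMul Γ L] (hΓ : IsPGroup 2 Γ) (hTC : admTC119 Γ L)
    (x : groupCohomology (G.LRep Γ L) 2)
    (hloc : ∀ (S : Finset Nat.Primes) (𝔪 : G.SPlace S L), (G.locMapL S Γ 𝔪 2).hom x = 0) :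
    x = 0 := by
  classical
  haveI : Fact (Nat.Prime 2) := ⟨Nat.prime_two⟩
  haveI : Fintype Γ := Fintype.ofFinite Γ
  have hUp : PClassUpperGen119 2 admTC119 := pClassUpper_tc119 2
  have hSES : ClassShortExactSpec := G.AllH604.classShortExact
  have hSh : ShapiroJSpec := G.AllH604.shapiroJ
  induction x using groupCohomology_induction_on with
  | h c =>
    -- the finite set `S`
    obtain ⟨S₁, hS₁⟩ := exists_S_unram (L := L) Γ
    have hex : ∀ v : Fin 2 → Γ, ∃ S₀ : Finset Nat.Primes, ∀ S : Finset Nat.Primes, S₀ ⊆ S →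
        ordHom S L ((iCocycles (LRep Γ L) 2).hom c v) = 0 := fun v => exists_S_units _
    choose S₂ hS₂ using hex
    set S : Finset Nat.Primes := ({⟨2, Nat.prime_two⟩} ∪ S₁) ∪ Finset.univ.biUnion S₂ with hSdef
    have hpS : (⟨2, Nat.prime_two⟩ : Nat.Primes) ∈ S := by
      rw [hSdef]
      exact Finset.mem_union_left _ (Finset.mem_union_left _ (Finset.mem_singleton_self _))
    have hunr : IsUnramOut S Γ L := hS₁ S (by
      rw [hSdef]
      exact Finset.subset_union_right.trans Finset.subset_union_left)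
    have hord : ∀ v : Fin 2 → Γ, ordHom S L ((iCocycles (LRep Γ L) 2).hom c v) = 0 := fun v =>
      hS₂ v S (by
        rw [hSdef]
        exact (Finset.subset_biUnion_of_mem S₂ (Finset.mem_univ v)).trans
          Finset.subset_union_right)
    have hroot : HasFixedRootOfUnity 2 Γ L := hasFixedRoot_two421 Γ L
    -- `H¹(Γ, C_S) = 0`
    have hH1 : Limits.IsZero (groupCohomology (CRep S Γ L) 1) :=
      isZero_H1_of_top _ (hUp S Γ L hTC hpS hΓ hunr hroot ⊤).1
    -- `H²(Γ, Lˣ) → H²(Γ, J_S × Div^S)` is injective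
    have hX := hSES S Γ L ⟨_, hpS⟩
    have hmono : Mono (groupCohomology.map (A := LRep Γ L) (B := JDRep S Γ L)
        (MonoidHom.id Γ) (diagRepHom S Γ L) 2) := by
      have hex := mapShortComplex₁_exact hX (i := 1) (j := 2) rfl
      have h0 : (mapShortComplex₁ hX (i := 1) (j := 2) rfl).f = 0 := hH1.eq_of_src _ _
      exact hex.mono_g h0
    have hinj := (ModuleCat.mono_iff_injective _).1 hmono
    apply hinj
    rw [map_zero]
    -- the class of `unitsDiag ∘ c` in `H²(Γ, J_S)` vanishes by Shapiro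
    have hdu : (inhomogeneousCochains.d (JRep Γ S L) 2).hom
        (fun v => unitsDiag S L ((iCocycles (LRep Γ L) 2).hom c v)) = 0 := by
      have h0 := d_comp_eq (LRep Γ L) (JRep Γ S L) (unitsDiag S L)
        (unitsDiag_equivariant Γ S L) 2 ((iCocycles (LRep Γ L) 2).hom c)
      rw [d_iCocycles] at h0
      refine h0.trans ?_
      funext v
      exact map_zero _
    have hu0 : (π (JRep Γ S L) 2).hom (cocyclesMk _ hdu) = 0 := by
      haveI : Finite (SPlace S L) := (PL0H713.locField S L).1
      obtain ⟨R, hR⟩ := H953.exists_orbitReps S Γ L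
      apply (hSh S Γ L R hR 2).1
      funext r
      show (locMapJ S Γ r.1 2).hom _ = (locMapJ S Γ r.1 2).hom 0
      rw [map_zero]
      have h1 := hloc S r.1
      unfold locMapL at h1
      unfold locMapJ
      rw [map_π_eq_zero_iff] at h1 ⊢
      refine (congrArg (IsCobdry (LocRep S Γ r.1) 2) ?_).mpr h1
      funext x
      have h3 := congrFun (iCocycles_mk _ hdu) (fun i => (decomp S Γ r.1).subtype (x i))
      exact congrArg (jToLocRepHom S Γ r.1).hom h3
    have h2 : (groupCohomology.map (A := JRep Γ S L) (B := JDRep S Γ L)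
        (MonoidHom.id Γ) (jInlRepHom S Γ L) 2).hom
        ((π (JRep Γ S L) 2).hom (cocyclesMk _ hdu)) = 0 := by
      rw [hu0, map_zero]
    rw [map_π_eq_zero_iff] at h2 ⊢
    refine (congrArg (IsCobdry (JDRep S Γ L) 2) ?_).mpr h2
    funext x
    have h3 := congrFun (iCocycles_mk _ hdu) (fun i => (MonoidHom.id Γ) (x i))
    refine Eq.trans ?_ (congrArg (jInlRepHom S Γ L).hom h3).symm
    exact Prod.ext rfl (hord _)

/-! ## 2. Finite level, arbitrary finite groups (Sylow reduction) -/

/-- **HP-FIN at `p = 2`, totally complex base.**  `Γ` finite acting faithfully on the number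
field `L`, `L^Γ` totally complex: a class of `2`-power order in `H²(Γ, Lˣ)` which is locally
trivial at all places above all finite sets `S` of primes is trivial. -/
theorem hasseFin_tc421 (Γ L : Type) [Group Γ] [Finite Γ] [Field L] [NumberField L]
    [MulSemiringAction Γ L] [FaithfulSMul Γ L] (hTC : admTC119 Γ L)
    (x : groupCohomology (G.LRep Γ L) 2) (hx : ∃ k : ℕ, 2 ^ k • x = 0)
    (hloc : ∀ (S : Finset Nat.Primes) (𝔪 : G.SPlace S L), (G.locMapL S Γ 𝔪 2).hom x = 0) :
    x = 0 := by
  obtain ⟨k, hk⟩ := hx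
  classical
  haveI : Fact (Nat.Prime 2) := ⟨Nat.prime_two⟩
  obtain ⟨P⟩ : Nonempty (Sylow 2 Γ) := inferInstance
  have h0 : (H841.globRes L (P : Subgroup Γ) 2).hom x = 0 := by
    refine hasseFinP_tc421 ↥(P : Subgroup Γ) L P.isPGroup'
      (isStable_admTC119.sub Γ L (P : Subgroup Γ) hTC) _ ?_
    intro S 𝔪
    have h := ConcreteCategory.congr_hom (H841.globRes_locMapL S L (P : Subgroup Γ) 𝔪 2) x
    rw [ConcreteCategory.comp_apply, ConcreteCategory.comp_apply] at h
    rw [h, hloc S 𝔪, map_zero]
  have h1 : (P : Subgroup Γ).index • x = 0 :=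
    Fermat.Agent.S55.T.H572.resIndex ℤ Γ (G.LRep Γ L) (P : Subgroup Γ) 2 (by norm_num) x h0
  have hcop : Nat.Coprime (P : Subgroup Γ).index (2 ^ k) :=
    Nat.Coprime.pow_right k ((Nat.Prime.coprime_iff_not_dvd Nat.prime_two).2 P.not_dvd_index).symm
  have h3 : addOrderOf x ∣ 1 := by
    rw [← Nat.Coprime.gcd_eq_one hcop]
    exact Nat.dvd_gcd (addOrderOf_dvd_of_nsmul_eq_zero h1) (addOrderOf_dvd_of_nsmul_eq_zero hk)
  exact AddMonoid.addOrderOf_eq_one_iff.1 (Nat.dvd_one.1 h3)

/-! ## 3. From the absolute hypothesis `IsTC U` to the finite levels -/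

/-- If `ℚ̄^U` is totally complex, then at every finite level `F` with `Gal(ℚ̄/F) ≤ U` the fixed
field of the image `lvlGal U F` of `U` in `Gal(F/ℚ)` is totally complex. -/
theorem admTC_level421 (U : Subgroup GQ) (F : IntermediateField ℚ Qb) [FiniteDimensional ℚ F]
    [Normal ℚ F] (hFU : F.fixingSubgroup ≤ U) (hTC : H1.IsTC U) :
    admTC119 ↥(lvlGal U F) ↥F := by
  intro φ
  haveI : Algebra.IsAlgebraic ℚ Qb := AlgebraicClosure.isAlgebraic ℚ
  haveI : IsAlgClosure ℚ Qb := ⟨inferInstance, inferInstance⟩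
  haveI : Normal ℚ Qb := IsAlgClosure.normal ℚ Qb
  haveI : IsGalois ℚ Qb := isGalois_iff.mpr ⟨inferInstance, inferInstance⟩
  haveI : Algebra.IsAlgebraic ↥F Qb := Algebra.IsAlgebraic.tower_top (K := ℚ) ↥F
  -- extend `φ` to `ℚ̄`
  letI : Algebra ↥F ℂ := φ.toAlgebra
  let ψ : Qb →ₐ[↥F] ℂ := IsAlgClosed.lift
  obtain ⟨a, ha, hne⟩ := hTC (ψ : Qb →+* ℂ)
  -- `a ∈ F`
  have haF : a ∈ F := by
    rw [← InfiniteGalois.fixedField_fixingSubgroup F, IntermediateField.mem_fixedField_iff]
    intro σ hσ
    exact ha σ (hFU hσ)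
  refine ⟨⟨a, haF⟩, ?_, ?_⟩
  · rintro ⟨γ, u, rfl⟩
    apply Subtype.ext
    have h := lvlRes_apply_coe U F u ⟨a, haF⟩
    exact h.trans (ha u u.2)
  · have e : φ ⟨a, haF⟩ = ψ a := (ψ.commutes ⟨a, haF⟩).symm
    rw [e]
    exact hne

/-! ## 4. The Hasse principle -/

/-- **HP2** (OUT of the sub-tower G2 = IN of REC2): the Hasse principle for the `2`-primary part
of the Brauer group of a totally complex number field `K = ℚ̄^U`: a class of `2`-power order
which is trivial at all finite places is trivial.  Unconditional. -/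
theorem hassePrinciple2 : H1.HassePrinciple2Spec := by
  intro U hU hTC x hx hloc
  obtain ⟨c, rfl⟩ := Submodule.mkQ_surjective _ x
  obtain ⟨k, hk⟩ := hx
  obtain ⟨F, hFfin, hFnorm, f, -, hFU, hinf, htors⟩ :=
    H126.globalDescent U hU c (2 ^ k) hk ⊥ inferInstance
  have := hFfin
  have := hFnorm
  have hfin : (H2π (G.LRep ↥(lvlGal U F) ↥F)).hom f = 0 := by
    refine hasseFin_tc421 ↥(lvlGal U F) ↥F (admTC_level421 U F hFU hTC) _ ⟨k, htors⟩ ?_
    exact localGlue U F hFU f c hinf (fun q _ g => hloc q g)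
  exact H126.globalUp U F hFU f c hinf hfin

end Fermat.Agent.LT.CFT.H421
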